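/-
`q`-expansions of the Weierstrass functions `℘, ℘'` of the lattice `ℤ + ℤ t`, at any point `z`
with `0 ≤ im z < im t`, `z ∉ ℤ`.
-/
import Fermat.Agent.Mazur.Moduli.LatticeJ
import Mathlib.NumberTheory.ModularForms.EisensteinSeries.QExpansion
import Mathlib.NumberTheory.ZetaValues
import Mathlib.Analysis.Normed.Module.Connected
import Mathlib.Analysis.Complex.LocallyUniformLimit

set_option autoImplicit false

noncomputable section

open Complex Filter Topology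
open UpperHalfPlane hiding I
open scoped Real

namespace Fermat.Agent.DeligneSerre

/-- `exp (2πiw)`. -/
def expTwoPiI (w : ℂ) : ℂ := cexp (2 * π * I * w)

theorem expTwoPiI_add (v w : ℂ) : expTwoPiI (v + w) = expTwoPiI v * expTwoPiI w := by
  rw [expTwoPiI, expTwoPiI, expTwoPiI, ← Complex.exp_add, mul_add]

theorem expTwoPiI_neg (w : ℂ) : expTwoPiI (-w) = (expTwoPiI w)⁻¹ := by
  rw [expTwoPiI, expTwoPiI, ← Complex.exp_neg, mul_neg]

theorem expTwoPiI_ne_zero (w : ℂ) : expTwoPiI w ≠ 0 := Complex.exp_ne_zero _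

theorem expTwoPiI_nat_mul (n : ℕ) (w : ℂ) : expTwoPiI (n * w) = expTwoPiI w ^ n := by
  rw [expTwoPiI, expTwoPiI, ← Complex.exp_nat_mul]
  congr 1
  ring

theorem expTwoPiI_eq_one_iff {w : ℂ} : expTwoPiI w = 1 ↔ ∃ n : ℤ, w = n := by
  rw [expTwoPiI, Complex.exp_eq_one_iff]
  refine exists_congr fun n => ⟨fun h => mul_left_cancel₀ two_pi_I_ne_zero ?_, fun h => ?_⟩
  · rw [h]; ring
  · rw [h]; ring

/-- `ℂ \ ℤ`. -/
def nonInteger : Set ℂ := (Set.range ((↑) : ℤ → ℂ))ᶜ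

theorem mem_nonInteger {w : ℂ} : w ∈ nonInteger ↔ ∀ n : ℤ, w ≠ n := by
  simp [nonInteger, eq_comm]

theorem mem_nonInteger_of_im_ne_zero {w : ℂ} (h : w.im ≠ 0) : w ∈ nonInteger := by
  rw [mem_nonInteger]
  rintro n rfl
  exact h (Complex.intCast_im n)

theorem isOpen_nonInteger : IsOpen nonInteger :=
  Complex.isClosed_range_intCast.isOpen_compl

theorem isPreconnected_nonInteger : IsPreconnected nonInteger :=
  ((Set.countable_range _).isConnected_compl_of_one_lt_rank (by simp)).isPreconnected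

theorem add_int_ne_zero {w : ℂ} (hw : w ∈ nonInteger) (n : ℤ) : w + n ≠ 0 := by
  intro h
  exact mem_nonInteger.1 hw (-n) (by push_cast; linear_combination h)

/-- A local lower bound for `‖w + n‖`, linear in `n`. -/
theorem exists_lower_bound {w₀ : ℂ} (hw : w₀ ∈ nonInteger) :
    ∃ U : Set ℂ, IsOpen U ∧ w₀ ∈ U ∧ U ⊆ nonInteger ∧ ∃ c > 0, ∀ w ∈ U, ∀ n : ℤ,
      c * (1 + |(n : ℝ)|) ≤ ‖w + n‖ := by
  obtain ⟨r, hr, hball⟩ := Metric.isOpen_iff.1 isOpen_nonInteger w₀ hw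
  set B := ‖w₀‖ + r + 1 with hB
  have hB1 : 1 ≤ B := by rw [hB]; linarith [norm_nonneg w₀]
  refine ⟨Metric.ball w₀ (r / 2), Metric.isOpen_ball, Metric.mem_ball_self (half_pos hr),
    (Metric.ball_subset_ball (by linarith)).trans hball,
    min (r / (2 * (1 + 2 * B))) (1 / 4), lt_min (by positivity) (by norm_num), fun w hw' n => ?_⟩
  rw [Metric.mem_ball, dist_eq_norm] at hw'
  have h1 : r ≤ ‖w₀ + n‖ := by
    by_contra h
    push Not at h
    have : (-(n : ℂ)) ∈ nonInteger := hball (by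
      rw [Metric.mem_ball, dist_eq_norm, show -(n : ℂ) - w₀ = -(w₀ + n) by ring, norm_neg]
      exact h)
    exact mem_nonInteger.1 this (-n) (by push_cast; ring)
  have h2 : r / 2 ≤ ‖w + n‖ := by
    have h := norm_sub_norm_le (w₀ + n) (w + n)
    rw [show w₀ + (n : ℂ) - (w + n) = -(w - w₀) by ring, norm_neg] at h
    linarith
  by_cases hn : |(n : ℝ)| ≤ 2 * B
  · refine le_trans (mul_le_mul (min_le_left _ _) (by linarith : 1 + |(n : ℝ)| ≤ 1 + 2 * B)
      (by positivity) (by positivity)) (le_of_eq_of_le ?_ h2)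
    field_simp
  · push Not at hn
    refine le_trans (mul_le_mul_of_nonneg_right (min_le_right _ _) (by positivity)) ?_
    have h3 := norm_sub_norm_le ((n : ℂ)) (-w)
    rw [norm_neg, sub_neg_eq_add, add_comm (n : ℂ), Complex.norm_intCast] at h3
    have h4 : ‖w‖ ≤ B := by
      have := norm_sub_norm_le w w₀
      linarith
    linarith

theorem summable_inv_one_add_abs_sq : Summable fun n : ℤ => ((1 + |(n : ℝ)|) ^ 2)⁻¹ := by
  have h : Summable fun n : ℕ => (((n : ℝ) + 1) ^ 2)⁻¹ := by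
    have := (summable_nat_add_iff (f := fun n : ℕ => ((n : ℝ) ^ 2)⁻¹) 1).2
      (Real.summable_nat_pow_inv.2 one_lt_two)
    simpa using this
  refine Summable.of_nat_of_neg ?_ ?_ <;> refine h.congr fun n => ?_ <;> simp [add_comm]

/-- Locally uniform bound for the row sums. -/
theorem exists_summable_bound {w₀ : ℂ} (hw : w₀ ∈ nonInteger) {k : ℕ} (hk : 2 ≤ k) :
    ∃ U : Set ℂ, IsOpen U ∧ w₀ ∈ U ∧ U ⊆ nonInteger ∧ ∃ u : ℤ → ℝ, Summable u ∧
      ∀ (n : ℤ) (w : ℂ), w ∈ U → ‖((w + n) ^ k)⁻¹‖ ≤ u n := by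
  obtain ⟨U, hU, hwU, hsub, c, hc, hbd⟩ := exists_lower_bound hw
  refine ⟨U, hU, hwU, hsub, fun n => (c ^ k)⁻¹ * ((1 + |(n : ℝ)|) ^ 2)⁻¹,
    summable_inv_one_add_abs_sq.mul_left _, fun n w hw => ?_⟩
  simp only
  rw [norm_inv, norm_pow, ← mul_inv, inv_le_inv₀ (pow_pos (norm_pos_iff.2
    (add_int_ne_zero (hsub hw) n)) _) (by positivity)]
  calc c ^ k * (1 + |(n : ℝ)|) ^ 2 ≤ c ^ k * (1 + |(n : ℝ)|) ^ k := by
        gcongr
        · linarith [abs_nonneg (n : ℝ)]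
    _ = (c * (1 + |(n : ℝ)|)) ^ k := (mul_pow _ _ _).symm
    _ ≤ ‖w + n‖ ^ k := pow_le_pow_left₀ (by positivity) (hbd w hw n) k

theorem summable_row {w : ℂ} (hw : w ∈ nonInteger) {k : ℕ} (hk : 2 ≤ k) :
    Summable fun n : ℤ => ((w + n) ^ k)⁻¹ := by
  obtain ⟨U, -, hwU, -, u, hu, hbd⟩ := exists_summable_bound hw hk
  exact Summable.of_norm_bounded hu fun n => hbd n w hwU

theorem differentiableOn_row {k : ℕ} (hk : 2 ≤ k) :
    DifferentiableOn ℂ (fun w : ℂ => ∑' n : ℤ, ((w + n) ^ k)⁻¹) nonInteger := by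
  intro w hw
  obtain ⟨U, hU, hwU, hsub, u, hu, hbd⟩ := exists_summable_bound hw hk
  refine ((differentiableOn_tsum_of_summable_norm hu (fun n => ?_) hU hbd).differentiableAt
    (hU.mem_nhds hwU)).differentiableWithinAt
  exact DifferentiableOn.inv (by fun_prop) fun v hv => pow_ne_zero _ (add_int_ne_zero (hsub hv) n)

/-- `u / (1 - u) ^ 2`. -/
def rowF (u : ℂ) : ℂ := u / (1 - u) ^ 2

/-- `u (1 + u) / (1 - u) ^ 3`. -/
def rowG (u : ℂ) : ℂ := u * (1 + u) / (1 - u) ^ 3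

theorem rowF_inv (u : ℂ) : rowF u⁻¹ = rowF u := by
  rcases eq_or_ne u 0 with rfl | h0
  · simp [rowF]
  rcases eq_or_ne u 1 with rfl | h1
  · simp
  have h2 : 1 - u ≠ 0 := sub_ne_zero.2 (Ne.symm h1)
  have h3 : 1 - u⁻¹ = -(1 - u) / u := by field_simp; ring
  rw [rowF, rowF, h3]
  field_simp

theorem rowG_inv (u : ℂ) : rowG u⁻¹ = -rowG u := by
  rcases eq_or_ne u 0 with rfl | h0
  · simp [rowG]
  rcases eq_or_ne u 1 with rfl | h1
  · simp [rowG]
  have h2 : 1 - u ≠ 0 := sub_ne_zero.2 (Ne.symm h1)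
  have h3 : 1 - u⁻¹ = -(1 - u) / u := by field_simp; ring
  rw [rowG, rowG, h3]
  field_simp
  ring

theorem norm_expTwoPiI_lt_one {w : ℂ} (hw : 0 < w.im) : ‖expTwoPiI w‖ < 1 := by
  rw [expTwoPiI, Complex.norm_exp]
  simp [Real.pi_pos, hw]

theorem one_sub_expTwoPiI_ne_zero {w : ℂ} (hw : w ∈ nonInteger) : 1 - expTwoPiI w ≠ 0 := by
  rw [sub_ne_zero, ne_comm]
  intro h
  obtain ⟨n, hn⟩ := expTwoPiI_eq_one_iff.1 h
  exact mem_nonInteger.1 hw n hn

theorem differentiableOn_rowF : DifferentiableOn ℂ (fun w => rowF (expTwoPiI w)) nonInteger := by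
  unfold rowF expTwoPiI
  refine DifferentiableOn.div (by fun_prop) (by fun_prop) fun w hw => pow_ne_zero _ ?_
  exact one_sub_expTwoPiI_ne_zero hw

/-- Sum of the inverse squares along a translate of `ℤ`. -/
theorem tsum_row_two {w : ℂ} (hw : w ∈ nonInteger) :
    ∑' n : ℤ, ((w + n) ^ 2)⁻¹ = (2 * π * I) ^ 2 * rowF (expTwoPiI w) := by
  have h1 : AnalyticOnNhd ℂ (fun w : ℂ => ∑' n : ℤ, ((w + n) ^ 2)⁻¹) nonInteger :=
    (differentiableOn_row le_rfl).analyticOnNhd isOpen_nonInteger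
  have h2 : AnalyticOnNhd ℂ (fun w => (2 * π * I) ^ 2 * rowF (expTwoPiI w)) nonInteger :=
    (differentiableOn_rowF.const_mul _).analyticOnNhd isOpen_nonInteger
  refine h1.eqOn_of_preconnected_of_eventuallyEq h2 isPreconnected_nonInteger
    (mem_nonInteger_of_im_ne_zero (w := I) (by simp)) ?_ hw
  filter_upwards [isOpen_upperHalfPlaneSet.mem_nhds (show (I : ℂ) ∈ upperHalfPlaneSet by
    simp [upperHalfPlaneSet])] with v hv
  have h := EisensteinSeries.qExpansion_identity le_rfl ⟨v, hv⟩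
  simp only [Nat.factorial_one, Nat.cast_one, div_one, pow_one, one_div] at h
  have hq : cexp (2 * π * I * v) = expTwoPiI v := rfl
  rw [hq, tsum_coe_mul_geometric_of_norm_lt_one (norm_expTwoPiI_lt_one (w := v) hv)] at h
  rw [rowF, h]
  ring

theorem hasSum_row_two {w : ℂ} (hw : w ∈ nonInteger) :
    HasSum (fun n : ℤ => ((w + n) ^ 2)⁻¹) ((2 * π * I) ^ 2 * rowF (expTwoPiI w)) :=
  tsum_row_two hw ▸ (summable_row hw le_rfl).hasSum

theorem hasDerivAt_expTwoPiI (w : ℂ) :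
    HasDerivAt expTwoPiI (expTwoPiI w * (2 * π * I)) w := by
  unfold expTwoPiI
  simpa using ((hasDerivAt_id w).const_mul (2 * π * I)).cexp

theorem hasDerivAt_rowF {w : ℂ} (hw : w ∈ nonInteger) :
    HasDerivAt (fun v => rowF (expTwoPiI v)) (2 * π * I * rowG (expTwoPiI w)) w := by
  have he := hasDerivAt_expTwoPiI w
  have h1 := one_sub_expTwoPiI_ne_zero hw
  have h2 := he.div ((he.const_sub 1).pow 2) (pow_ne_zero _ h1)
  refine h2.congr_deriv ?_
  simp only [rowG, Nat.cast_ofNat, Nat.add_one_sub_one, pow_one, Pi.pow_apply]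
  field_simp
  ring

/-- Sum of the inverse cubes along a translate of `ℤ`. -/
theorem hasSum_row_three {w : ℂ} (hw : w ∈ nonInteger) :
    HasSum (fun n : ℤ => ((w + n) ^ 3)⁻¹) (-((2 * π * I) ^ 3 * rowG (expTwoPiI w)) / 2) := by
  obtain ⟨U, hU, hwU, hsub, u, hu, hbd⟩ := exists_summable_bound hw (k := 2) le_rfl
  have hd : ∀ (n : ℤ) (v : ℂ), v ∈ U →
      HasDerivAt (fun v : ℂ => ((v + n) ^ 2)⁻¹) (-2 * ((v + n) ^ 3)⁻¹) v := by
    intro n v hv
    have h1 := add_int_ne_zero (hsub hv) n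
    refine ((((hasDerivAt_id v).add_const (n : ℂ)).pow 2).inv (pow_ne_zero 2 h1)).congr_deriv ?_
    simp only [id_eq, Nat.cast_ofNat, Nat.add_one_sub_one, pow_one, Pi.pow_apply]
    field_simp
  have h := hasSum_deriv_of_summable_norm hu
    (fun n v hv => (hd n v hv).differentiableAt.differentiableWithinAt) hU hbd hwU
  have he : (fun v : ℂ => ∑' n : ℤ, ((v + n) ^ 2)⁻¹) =ᶠ[𝓝 w]
      fun v => (2 * π * I) ^ 2 * rowF (expTwoPiI v) := by
    filter_upwards [hU.mem_nhds hwU] with v hv using tsum_row_two (hsub hv)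
  rw [he.deriv_eq, ((hasDerivAt_rowF hw).const_mul _).deriv] at h
  simp only [fun n : ℤ => (hd n w hwU).deriv] at h
  have h' := h.mul_left (-1 / 2)
  convert! h' using 1
  · funext n; ring
  · ring

theorem hasSum_inv_int_sq : HasSum (fun n : ℤ => ((n : ℂ) ^ 2)⁻¹) (-(2 * π * I) ^ 2 / 12) := by
  have h := hasSum_zeta_two
  have h1 : HasSum (fun n : ℕ => ((n : ℂ) ^ 2)⁻¹) ((π : ℂ) ^ 2 / 6) := by
    have := Complex.hasSum_ofReal.2 h
    simpa [one_div] using this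
  have h2 := h1.of_nat_of_neg (f := fun n : ℤ => ((n : ℂ) ^ 2)⁻¹) (by simpa using h1)
  simp only [Int.cast_zero, ne_eq, OfNat.ofNat_ne_zero, not_false_eq_true, zero_pow, inv_zero,
    sub_zero] at h2
  convert! h2 using 1
  rw [mul_pow, mul_pow, I_sq]
  ring

open Fermat.Agent.Mazur.Moduli (tauPair)

/-- The lattice `ℤ + ℤ t` indexed by `(m, n) ↦ m t + n`. -/
def tauLatticeEquiv (t : ℍ) : ℤ × ℤ ≃ (tauPair t).lattice :=
  (Equiv.prodComm ℤ ℤ).trans (tauPair t).latticeEquivProd.symm.toEquiv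

theorem coe_tauLatticeEquiv (t : ℍ) (x : ℤ × ℤ) :
    ((tauLatticeEquiv t x : (tauPair t).lattice) : ℂ) = x.1 * t + x.2 := by
  show (((tauPair t).latticeEquivProd.symm (x.2, x.1) : (tauPair t).lattice) : ℂ) = _
  rw [PeriodPair.latticeEquiv_symm_apply]
  simp [tauPair, add_comm]

variable {t : ℍ} {z : ℂ}

theorem sub_mul_mem_nonInteger (hz : z ∈ nonInteger) (h0 : 0 ≤ z.im) (ht : z.im < t.im) (m : ℤ) :
    z - m * (t : ℂ) ∈ nonInteger := by
  rcases eq_or_ne m 0 with rfl | hm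
  · simpa using hz
  refine mem_nonInteger_of_im_ne_zero ?_
  have him : (z - m * (t : ℂ)).im = z.im - m * t.im := by simp
  rw [him]
  intro h
  rcases lt_or_gt_of_ne hm with hm | hm
  · have : (m : ℝ) ≤ -1 := by exact_mod_cast (show m ≤ -1 by omega)
    nlinarith [t.im_pos]
  · have : (1 : ℝ) ≤ m := by exact_mod_cast (show 1 ≤ m by omega)
    nlinarith [t.im_pos]

theorem int_mul_mem_nonInteger {m : ℤ} (hm : m ≠ 0) : (m : ℂ) * (t : ℂ) ∈ nonInteger :=
  mem_nonInteger_of_im_ne_zero (by simp [hm, UpperHalfPlane.im_ne_zero])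

/-- The summand of `℘` coming from the row `m`. -/
def wpRow (t : ℍ) (z : ℂ) (m : ℤ) : ℂ :=
  rowF (expTwoPiI (z - m * (t : ℂ))) -
    if m = 0 then -1 / 12 else rowF (expTwoPiI (m * (t : ℂ)))

theorem hasSum_wpRow (hz : z ∈ nonInteger) (h0 : 0 ≤ z.im) (ht : z.im < t.im) :
    HasSum (wpRow t z) ((tauPair t).weierstrassP z / (2 * π * I) ^ 2) := by
  have h := ((tauLatticeEquiv t).hasSum_iff).2
    ((tauPair t).hasSum_weierstrassP z)
  have hc : (2 * π * I : ℂ) ^ 2 ≠ 0 := pow_ne_zero _ two_pi_I_ne_zero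
  have hrow : ∀ m : ℤ, HasSum (fun n : ℤ => (1 / (z - (m * (t : ℂ) + n)) ^ 2 -
      1 / (m * (t : ℂ) + n) ^ 2)) ((2 * π * I) ^ 2 * wpRow t z m) := by
    intro m
    rw [wpRow, mul_sub]
    refine HasSum.sub ?_ ?_
    · refine (((Equiv.neg ℤ).hasSum_iff).2 (hasSum_row_two
        (sub_mul_mem_nonInteger hz h0 ht m))).congr_fun fun n => ?_
      simp [sub_eq_add_neg, add_assoc]
      ring_nf
    · split_ifs with hm
      · subst hm
        convert! hasSum_inv_int_sq using 1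
        · funext n; simp
        · field_simp
      · exact (hasSum_row_two (int_mul_mem_nonInteger hm)).congr_fun fun n => one_div _
  have h2 := HasSum.prod_fiberwise h fun m => (hrow m).congr_fun fun n => by
    simp [Function.comp_apply, coe_tauLatticeEquiv]
  have h3 := h2.div_const ((2 * π * I) ^ 2)
  exact h3.congr_fun fun m => (mul_div_cancel_left₀ _ hc).symm

/-- The summand of `℘'` coming from the row `m`. -/
def wpDerivRow (t : ℍ) (z : ℂ) (m : ℤ) : ℂ := rowG (expTwoPiI (z - m * (t : ℂ)))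

theorem hasSum_wpDerivRow (hz : z ∈ nonInteger) (h0 : 0 ≤ z.im) (ht : z.im < t.im) :
    HasSum (wpDerivRow t z) ((tauPair t).derivWeierstrassP z / (2 * π * I) ^ 3) := by
  have h0' : HasSum (fun l : (tauPair t).lattice => -2 / (z - (l : ℂ)) ^ 3)
      ((tauPair t).derivWeierstrassP z) := (tauPair t).hasSum_derivWeierstrassP z
  have h := ((tauLatticeEquiv t).hasSum_iff).2 h0'
  have hc : (2 * π * I : ℂ) ^ 3 ≠ 0 := pow_ne_zero _ two_pi_I_ne_zero
  have hrow : ∀ m : ℤ, HasSum (fun n : ℤ => -2 / (z - (m * (t : ℂ) + n)) ^ 3)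
      ((2 * π * I) ^ 3 * wpDerivRow t z m) := by
    intro m
    have h1 := (((Equiv.neg ℤ).hasSum_iff).2 (hasSum_row_three
        (sub_mul_mem_nonInteger hz h0 ht m))).mul_left (-2)
    convert! h1 using 1
    · funext n
      simp [sub_eq_add_neg, add_assoc, div_eq_mul_inv]
      ring_nf
    · rw [wpDerivRow]; ring
  have h2 := HasSum.prod_fiberwise h fun m => (hrow m).congr_fun fun n => by
    simp [Function.comp_apply, coe_tauLatticeEquiv]
  exact (h2.div_const ((2 * π * I) ^ 3)).congr_fun fun m => (mul_div_cancel_left₀ _ hc).symm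

/-- Normalised `℘` as a series in `u = e(z)`, `Q = e(t)`. -/
def tateX (u Q : ℂ) : ℂ :=
  rowF u + 1 / 12 + ∑' m : ℕ, (rowF (Q ^ (m + 1) * u) + rowF (Q ^ (m + 1) / u)
    - 2 * rowF (Q ^ (m + 1)))

/-- Normalised `℘'` as a series in `u = e(z)`, `Q = e(t)`. -/
def tateW (u Q : ℂ) : ℂ :=
  rowG u + ∑' m : ℕ, (rowG (Q ^ (m + 1) * u) - rowG (Q ^ (m + 1) / u))

theorem expTwoPiI_sub_mul (m : ℕ) :
    expTwoPiI (z - ((m + 1 : ℕ) : ℤ) * (t : ℂ)) =
      expTwoPiI z / expTwoPiI (t : ℂ) ^ (m + 1) := by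
  rw [sub_eq_add_neg, expTwoPiI_add, expTwoPiI_neg, Int.cast_natCast, expTwoPiI_nat_mul,
    div_eq_mul_inv]

theorem expTwoPiI_add_mul (m : ℕ) :
    expTwoPiI (z - (-((m + 1 : ℕ) : ℤ) : ℤ) * (t : ℂ)) =
      expTwoPiI (t : ℂ) ^ (m + 1) * expTwoPiI z := by
  rw [sub_eq_add_neg, expTwoPiI_add, Int.cast_neg, Int.cast_natCast, neg_mul, neg_neg,
    expTwoPiI_nat_mul, mul_comm]

/-- The `q`-expansion of `℘`. -/
theorem weierstrassP_eq_tateX (hz : z ∈ nonInteger) (h0 : 0 ≤ z.im) (ht : z.im < t.im) :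
    (tauPair t).weierstrassP z = (2 * π * I) ^ 2 * tateX (expTwoPiI z) (expTwoPiI t) := by
  have h1 := (hasSum_nat_add_iff' 1).2 (hasSum_wpRow hz h0 ht).nat_add_neg
  simp only [Finset.sum_range_one, Nat.cast_zero, neg_zero] at h1
  have h2 : ∀ m : ℕ, wpRow t z ((m + 1 : ℕ) : ℤ) + wpRow t z (-((m + 1 : ℕ) : ℤ)) =
      rowF (expTwoPiI (t : ℂ) ^ (m + 1) * expTwoPiI z) +
        rowF (expTwoPiI (t : ℂ) ^ (m + 1) / expTwoPiI z) -
          2 * rowF (expTwoPiI (t : ℂ) ^ (m + 1)) := by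
    intro m
    rw [wpRow, wpRow, if_neg (by omega), if_neg (by omega), expTwoPiI_sub_mul, expTwoPiI_add_mul,
      Int.cast_neg, neg_mul, expTwoPiI_neg, Int.cast_natCast, expTwoPiI_nat_mul, rowF_inv,
      ← rowF_inv (expTwoPiI z / _), inv_div]
    ring
  simp only [h2] at h1
  simp only [wpRow, if_true, Int.cast_zero, zero_mul, sub_zero] at h1
  rw [tateX, h1.tsum_eq]
  field_simp
  ring

/-- The `q`-expansion of `℘'`. -/
theorem derivWeierstrassP_eq_tateW (hz : z ∈ nonInteger) (h0 : 0 ≤ z.im) (ht : z.im < t.im) :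
    (tauPair t).derivWeierstrassP z =
      (2 * π * I) ^ 3 * tateW (expTwoPiI z) (expTwoPiI t) := by
  have h1 := (hasSum_nat_add_iff' 1).2 (hasSum_wpDerivRow hz h0 ht).nat_add_neg
  simp only [Finset.sum_range_one, Nat.cast_zero, neg_zero] at h1
  have h2 : ∀ m : ℕ, wpDerivRow t z ((m + 1 : ℕ) : ℤ) + wpDerivRow t z (-((m + 1 : ℕ) : ℤ)) =
      rowG (expTwoPiI (t : ℂ) ^ (m + 1) * expTwoPiI z) -
        rowG (expTwoPiI (t : ℂ) ^ (m + 1) / expTwoPiI z) := by
    intro m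
    rw [wpDerivRow, wpDerivRow, expTwoPiI_sub_mul, expTwoPiI_add_mul,
      show expTwoPiI z / expTwoPiI (t : ℂ) ^ (m + 1) =
        (expTwoPiI (t : ℂ) ^ (m + 1) / expTwoPiI z)⁻¹ from (inv_div _ _).symm, rowG_inv]
    ring
  simp only [h2] at h1
  simp only [wpDerivRow, Int.cast_zero, zero_mul, sub_zero] at h1
  rw [tateW, h1.tsum_eq]
  field_simp
  ring

end Fermat.Agent.DeligneSerre
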